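import Mathlib

/-!
# Row S15, node DESC (helper2): splitting a finite module at an ideal

For a commutative ring `T`, an ideal `𝔪` and a **finite** `T`-module `Y` there are `K ≥ 1` and
`f ∈ 𝔪 ^ K` acting on `Y` as an idempotent such that `𝔪 ^ K` kills `(1 - f) Y`.  Hence
`Y = Y[𝔪^∞] ⊕ f Y`, `Y[𝔪^∞] = ker f = (1 - f) Y` and `f Y ⊆ 𝔪 ^ k Y` for all `k`.
The datum `(K, f)` only depends on the annihilator of `Y`, so it passes to submodules and
quotients; this makes `Y ↦ Y[𝔪^∞]` exact on finite modules without any localisation.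
-/

set_option autoImplicit false

namespace Fermat.Agent.S15.H2

open Submodule

section Split

variable {T : Type*} [CommRing T]

/-- The `𝔪`-primary part `Y[𝔪^∞]` of a module. -/
def primaryPart (𝔪 : Ideal T) (Y : Type*) [AddCommGroup Y] [Module T Y] : Submodule T Y where
  carrier := {y | ∃ k : ℕ, ∀ t ∈ 𝔪 ^ k, t • y = 0}
  zero_mem' := ⟨0, fun t _ => smul_zero t⟩
  add_mem' := by
    rintro a b ⟨k, hk⟩ ⟨l, hl⟩
    refine ⟨max k l, fun t ht => ?_⟩
    rw [smul_add, hk t (Ideal.pow_le_pow_right (le_max_left k l) ht),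
      hl t (Ideal.pow_le_pow_right (le_max_right k l) ht), add_zero]
  smul_mem' := by
    rintro c y ⟨k, hk⟩
    exact ⟨k, fun t ht => by rw [smul_comm, hk t ht, smul_zero]⟩

theorem mem_primaryPart {𝔪 : Ideal T} {Y : Type*} [AddCommGroup Y] [Module T Y] {y : Y} :
    y ∈ primaryPart 𝔪 Y ↔ ∃ k : ℕ, ∀ t ∈ 𝔪 ^ k, t • y = 0 :=
  Iff.rfl

/-- A splitting datum for `Y` at `𝔪`. -/
structure IsSplit (𝔪 : Ideal T) (K : ℕ) (f : T) (Y : Type*) [AddCommGroup Y] [Module T Y] :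
    Prop where
  pos : 1 ≤ K
  mem : f ∈ 𝔪 ^ K
  idem : ∀ y : Y, f • f • y = f • y
  kill : ∀ t ∈ 𝔪 ^ K, ∀ y : Y, t • (y - f • y) = 0

variable {𝔪 : Ideal T} {K : ℕ} {f : T}

theorem exists_isSplit (𝔪 : Ideal T) (Y : Type*) [AddCommGroup Y] [Module T Y] [Finite Y] :
    ∃ (K : ℕ) (f : T), IsSplit 𝔪 K f Y := by
  have : IsArtinian T Y := isArtinian_of_finite
  obtain ⟨n, hn⟩ := IsArtinian.monotone_stabilizes (R := T) (M := Y)
    ⟨fun k => OrderDual.toDual ((𝔪 ^ k) • (⊤ : Submodule T Y)), fun a b hab =>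
      OrderDual.toDual_le_toDual.mpr (Submodule.smul_mono_left (Ideal.pow_le_pow_right hab))⟩
  have hn' : ∀ m, n ≤ m → (𝔪 ^ n) • (⊤ : Submodule T Y) = (𝔪 ^ m) • (⊤ : Submodule T Y) :=
    fun m hm => hn m hm
  set K := n + 1 with hK
  set N : Submodule T Y := (𝔪 ^ K) • (⊤ : Submodule T Y) with hN
  have hNfg : N.FG := by
    have : IsNoetherian T Y := isNoetherian_of_finite T Y
    exact IsNoetherian.noetherian N
  have hle : N ≤ (𝔪 ^ K) • N := by
    rw [hN, ← Submodule.mul_smul, ← pow_add, ← hn' (K + K) (by omega), ← hn' K (by omega)]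
  obtain ⟨r, hr1, hr⟩ :=
    Submodule.exists_sub_one_mem_and_smul_eq_zero_of_fg_of_le_smul (𝔪 ^ K) N hNfg hle
  have hfmem : 1 - r ∈ 𝔪 ^ K := by
    have := (𝔪 ^ K).neg_mem hr1
    simpa using this
  have hmemN : ∀ t ∈ 𝔪 ^ K, ∀ y : Y, t • y ∈ N := fun t ht y =>
    Submodule.smul_mem_smul ht Submodule.mem_top
  refine ⟨K, 1 - r, ⟨by omega, hfmem, fun y => ?_, fun t ht y => ?_⟩⟩
  · -- idempotent: (1 - r) • y ∈ N so r • (1 - r) • y = 0
    have h1 := hr _ (hmemN _ hfmem y)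
    have : (1 - r) • (1 - r) • y = (1 - r) • y - r • (1 - r) • y := by
      rw [sub_smul 1 r ((1 - r) • y), one_smul]
    rw [this, h1, sub_zero]
  · have h1 := hr _ (hmemN t ht y)
    have : y - (1 - r) • y = r • y := by rw [sub_smul, one_smul]; abel
    rw [this, smul_comm, h1]

namespace IsSplit

variable {Y : Type*} [AddCommGroup Y] [Module T Y]

theorem pow_smul (h : IsSplit 𝔪 K f Y) (y : Y) : ∀ n : ℕ, 1 ≤ n → f ^ n • y = f • y := by
  intro n hn
  induction n, hn using Nat.le_induction with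
  | base => rw [pow_one]
  | succ n _ ih => rw [pow_succ', mul_smul, ih, h.idem]

theorem pow_mem (h : IsSplit 𝔪 K f Y) (n : ℕ) : f ^ n ∈ 𝔪 ^ n := by
  have h1 : f ^ n ∈ (𝔪 ^ K) ^ n := Ideal.pow_mem_pow h.mem n
  rw [← pow_mul] at h1
  exact Ideal.pow_le_pow_right (Nat.le_mul_of_pos_left n h.pos) h1

theorem not_mem_of_ne_top (h : IsSplit 𝔪 K f Y) (h𝔪 : 𝔪 ≠ ⊤) : 1 - f ∉ 𝔪 := by
  intro hmem
  have hf : f ∈ 𝔪 := by
    have := h.pow_mem 1
    simpa using this
  exact h𝔪 ((Ideal.eq_top_iff_one 𝔪).mpr (by simpa using 𝔪.add_mem hmem hf))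

/-- `Y[𝔪^∞] = ker f`. -/
theorem mem_primaryPart_iff (h : IsSplit 𝔪 K f Y) (y : Y) :
    y ∈ primaryPart 𝔪 Y ↔ f • y = 0 := by
  constructor
  · rintro ⟨k, hk⟩
    rcases Nat.eq_zero_or_pos k with rfl | hkpos
    · have := hk 1 (by simp)
      rw [one_smul] at this
      rw [this, smul_zero]
    · rw [← h.pow_smul y k hkpos]
      exact hk _ (h.pow_mem k)
  · intro hy
    refine ⟨K, fun t ht => ?_⟩
    have := h.kill t ht y
    rwa [hy, sub_zero] at this

theorem sub_smul_mem_primaryPart (h : IsSplit 𝔪 K f Y) (y : Y) :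
    y - f • y ∈ primaryPart 𝔪 Y := by
  rw [h.mem_primaryPart_iff, smul_sub, h.idem, sub_self]

theorem smul_mem_pow_smul_top (h : IsSplit 𝔪 K f Y) (y : Y) (n : ℕ) :
    f • y ∈ (𝔪 ^ n) • (⊤ : Submodule T Y) := by
  rcases Nat.eq_zero_or_pos n with rfl | hn
  · simp
  · rw [← h.pow_smul y n hn]
    exact Submodule.smul_mem_smul (h.pow_mem n) Submodule.mem_top

/-- If `Y[𝔪^∞] = 0` then `Y = 𝔪 Y`. -/
theorem top_le_smul_top_of_primaryPart_eq_bot (h : IsSplit 𝔪 K f Y)
    (h0 : primaryPart 𝔪 Y = ⊥) : (⊤ : Submodule T Y) ≤ 𝔪 • (⊤ : Submodule T Y) := by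
  intro y _
  have h1 : y - f • y = 0 := by
    have := h.sub_smul_mem_primaryPart y
    rwa [h0, Submodule.mem_bot] at this
  have h2 : y = f • y := sub_eq_zero.mp h1
  rw [h2]
  have := h.smul_mem_pow_smul_top y 1
  rwa [pow_one] at this

/-- A splitting datum passes to the target of a surjective linear map. -/
theorem of_surjective {Z : Type*} [AddCommGroup Z] [Module T Z] (h : IsSplit 𝔪 K f Y)
    (φ : Y →ₗ[T] Z) (hφ : Function.Surjective φ) : IsSplit 𝔪 K f Z where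
  pos := h.pos
  mem := h.mem
  idem := fun z => by
    obtain ⟨y, rfl⟩ := hφ z
    rw [← map_smul, ← map_smul, h.idem]
  kill := fun t ht z => by
    obtain ⟨y, rfl⟩ := hφ z
    rw [← map_smul, ← map_sub, ← map_smul, h.kill t ht y, map_zero]

/-- A splitting datum passes to the source of an injective linear map. -/
theorem of_injective {Z : Type*} [AddCommGroup Z] [Module T Z] (h : IsSplit 𝔪 K f Y)
    (φ : Z →ₗ[T] Y) (hφ : Function.Injective φ) : IsSplit 𝔪 K f Z where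
  pos := h.pos
  mem := h.mem
  idem := fun z => hφ (by rw [map_smul, map_smul, h.idem])
  kill := fun t ht z => hφ (by
    rw [map_smul, map_sub, map_smul, h.kill t ht, map_zero])

end IsSplit

end Split

end Fermat.Agent.S15.H2
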