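import Mathlib
import Fermat.Agent.S15.H2.FiniteSplit

/-!
# Row S15, node DESC (helper2): the algebraic top of Mazur's Eisenstein descent

`T` a commutative ring acting on an abelian group `M` which is finitely generated over `ℤ`
(for S15: `M = J₀(p)(ℚ)`, f.g. by S17), `𝔪` an ideal of `T` containing the prime number `r`.

* `exists_smul_torsion_of_card_le` (**rank zero from the descent inequality**):
  if `#(M/rM)[𝔪^∞] ≤ #M[r][𝔪^∞]` then there is `s ≡ 1 mod 𝔪` with `s • M ⊆ M_tors`.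
* `exists_one_sub_mem_of_forall_maximal` (**gluing over the maximal ideals containing `I`**):
  if for every maximal `𝔪 ⊇ I` some `s ∉ 𝔪` maps `M` into torsion, then some `t ≡ 1 mod I` does.
-/

set_option autoImplicit false

namespace Fermat.Agent.S15.H2

open Submodule

section Torsion

variable (T : Type*) [CommRing T] (M : Type*) [AddCommGroup M] [Module T M]

/-- The `ℤ`-torsion of `M`, as a `T`-submodule. -/
def torsionSub : Submodule T M where
  carrier := {x | ∃ k : ℕ, 0 < k ∧ k • x = 0}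
  zero_mem' := ⟨1, one_pos, by simp⟩
  add_mem' := by
    rintro a b ⟨k, hk, hka⟩ ⟨l, hl, hlb⟩
    refine ⟨k * l, Nat.mul_pos hk hl, ?_⟩
    rw [smul_add, mul_comm, mul_smul, hka, smul_zero, mul_comm, mul_smul, hlb, smul_zero,
      add_zero]
  smul_mem' := by
    rintro c x ⟨k, hk, hkx⟩
    refine ⟨k, hk, ?_⟩
    rw [← Nat.cast_smul_eq_nsmul T, smul_comm, Nat.cast_smul_eq_nsmul T, hkx, smul_zero]

/-- `r M`, as a `T`-submodule. -/
def mulSub (r : ℕ) : Submodule T M :=
  LinearMap.range (LinearMap.lsmul T M (r : T))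

variable {T M}

theorem mem_torsionSub {x : M} : x ∈ torsionSub T M ↔ ∃ k : ℕ, 0 < k ∧ k • x = 0 :=
  Iff.rfl

theorem mem_mulSub {r : ℕ} {x : M} : x ∈ mulSub T M r ↔ ∃ y : M, r • y = x := by
  unfold mulSub
  rw [LinearMap.mem_range]
  simp only [LinearMap.lsmul_apply, Nat.cast_smul_eq_nsmul]

theorem finite_torsionSub [Module.Finite ℤ M] : Finite (torsionSub T M) := by
  have hfg : Module.Finite ℤ (torsionSub T M) := by
    have : IsNoetherian ℤ M := isNoetherian_of_isNoetherianRing_of_finite ℤ M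
    exact Module.Finite.of_injective
      ((torsionSub T M).subtype.toAddMonoidHom.toIntLinearMap) (torsionSub T M).injective_subtype
  refine Module.finite_of_fg_torsion _ ?_
  rintro ⟨x, k, hk, hkx⟩
  refine ⟨⟨(k : ℤ), ?_⟩, ?_⟩
  · exact mem_nonZeroDivisors_of_ne_zero (by exact_mod_cast hk.ne')
  · apply Subtype.ext
    show ((k : ℤ) • (⟨x, _⟩ : torsionSub T M) : torsionSub T M).1 = 0
    simpa using hkx

theorem finite_quotient_mulSub [Module.Finite ℤ M] {r : ℕ} (hr : 0 < r) :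
    Finite (M ⧸ mulSub T M r) := by
  have hfg : Module.Finite ℤ (M ⧸ mulSub T M r) :=
    Module.Finite.of_surjective
      ((mulSub T M r).mkQ.toAddMonoidHom.toIntLinearMap) (mulSub T M r).mkQ_surjective
  refine Module.finite_of_fg_torsion _ ?_
  intro x
  obtain ⟨y, rfl⟩ := (mulSub T M r).mkQ_surjective x
  refine ⟨⟨(r : ℤ), mem_nonZeroDivisors_of_ne_zero (by exact_mod_cast hr.ne')⟩, ?_⟩
  show (r : ℤ) • (mulSub T M r).mkQ y = 0
  rw [Nat.cast_smul_eq_nsmul, ← map_nsmul, mkQ_apply, Quotient.mk_eq_zero, mem_mulSub]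
  exact ⟨y, rfl⟩

end Torsion

section Count

variable {T : Type*} [CommRing T] {𝔪 : Ideal T} {K : ℕ} {f : T}
variable {X : Type*} [AddCommGroup X] [Module T X]

/-- The endomorphism `r (1 - f) + f`: it is `r` on `(1-f) X` and the identity on `f X`. -/
def splitEnd (f : T) (r : ℕ) (X : Type*) [AddCommGroup X] [Module T X] : X →ₗ[T] X :=
  (r : T) • (LinearMap.id - f • LinearMap.id) + f • LinearMap.id

theorem splitEnd_apply (r : ℕ) (x : X) :
    splitEnd f r X x = r • (x - f • x) + f • x := by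
  simp [splitEnd, Nat.cast_smul_eq_nsmul]

theorem splitEnd_eq_zero_iff (h : IsSplit 𝔪 K f X) (r : ℕ) (x : X) :
    splitEnd f r X x = 0 ↔ f • x = 0 ∧ r • x = 0 := by
  rw [splitEnd_apply]
  constructor
  · intro hx
    have h1 : f • (r • (x - f • x) + f • x) = f • x := by
      rw [smul_add, smul_comm f r, smul_sub, h.idem, sub_self, smul_zero, zero_add]
    rw [hx, smul_zero] at h1
    refine ⟨h1.symm, ?_⟩
    rw [← h1, sub_zero, add_zero] at hx
    exact hx
  · rintro ⟨h1, h2⟩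
    rw [h1, sub_zero, h2, add_zero]

theorem mem_range_splitEnd_iff (h : IsSplit 𝔪 K f X) (r : ℕ) (y : X) :
    y ∈ LinearMap.range (splitEnd f r X) ↔ ∃ w : X, r • w = y - f • y := by
  rw [LinearMap.mem_range]
  constructor
  · rintro ⟨u, rfl⟩
    refine ⟨u - f • u, ?_⟩
    have e : f • (r • (u - f • u) + f • u) = f • u := by
      rw [smul_add, smul_comm f r, smul_sub, h.idem, sub_self, smul_zero, zero_add]
    rw [splitEnd_apply, e]
    abel
  · rintro ⟨w, hw⟩
    refine ⟨(w - f • w) + f • y, ?_⟩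
    have e1 : f • ((w - f • w) + f • y) = f • y := by
      rw [smul_add, smul_sub, h.idem, sub_self, zero_add, h.idem]
    have e2 : r • (w - f • w) = y - f • y := by
      rw [smul_sub, smul_comm r f, hw, smul_sub, h.idem, sub_self, sub_zero]
    rw [splitEnd_apply, e1, add_sub_cancel_right, e2]
    abel

/-- Counting principle: if `ker ψ = range g` for an endomorphism `g` of a finite group, then
`#ker g = #range ψ`. -/
theorem card_ker_eq_card_range {X B : Type*} [AddCommGroup X] [AddCommGroup B] [Finite X]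
    (g : X →+ X) (ψ : X →+ B) (h : ∀ x, ψ x = 0 ↔ ∃ u, g u = x) :
    Nat.card g.ker = Nat.card ψ.range := by
  have h1 : Nat.card g.ker * Nat.card g.range = Nat.card X := by
    rw [← AddSubgroup.index_ker, AddSubgroup.card_mul_index]
  have h2 : Nat.card ψ.ker * Nat.card ψ.range = Nat.card X := by
    rw [← AddSubgroup.index_ker, AddSubgroup.card_mul_index]
  have h3 : ψ.ker = g.range := by
    ext x
    rw [AddMonoidHom.mem_ker, AddMonoidHom.mem_range]
    exact h x
  rw [h3] at h2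
  have hpos : 0 < Nat.card g.range := Nat.card_pos
  have : Nat.card g.ker * Nat.card g.range = Nat.card ψ.range * Nat.card g.range := by
    rw [h1, ← h2, mul_comm]
  exact Nat.eq_of_mul_eq_mul_right hpos this

end Count

section LayerOne

variable {T : Type*} [CommRing T] {M : Type*} [AddCommGroup M] [Module T M]

/-- the map `M_tors → M / r M`, `x ↦ [x - f x]` -/
def psiMap (f : T) (r : ℕ) (M : Type*) [AddCommGroup M] [Module T M] :
    torsionSub T M →ₗ[T] (M ⧸ mulSub T M r) :=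
  (mulSub T M r).mkQ ∘ₗ (torsionSub T M).subtype ∘ₗ (LinearMap.id - f • LinearMap.id)

theorem psiMap_apply (f : T) (r : ℕ) (x : torsionSub T M) :
    psiMap f r M x = (mulSub T M r).mkQ ((x : M) - f • (x : M)) := by
  simp [psiMap]

theorem psiMap_eq_zero_iff {𝔪 : Ideal T} {K : ℕ} {f : T} (h : IsSplit 𝔪 K f (torsionSub T M))
    {r : ℕ} (hr : 0 < r) (x : torsionSub T M) :
    psiMap f r M x = 0 ↔ ∃ u, splitEnd f r (torsionSub T M) u = x := by
  rw [psiMap_apply, mkQ_apply, Quotient.mk_eq_zero, mem_mulSub]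
  have := mem_range_splitEnd_iff h r x
  rw [LinearMap.mem_range] at this
  rw [this]
  constructor
  · rintro ⟨y, hy⟩
    have hyt : y ∈ torsionSub T M := by
      have hx : (x : M) - f • (x : M) ∈ torsionSub T M :=
        (torsionSub T M).sub_mem x.2 ((torsionSub T M).smul_mem f x.2)
      obtain ⟨k, hk, hkx⟩ := hx
      refine ⟨k * r, Nat.mul_pos hk hr, ?_⟩
      rw [mul_smul, hy, hkx]
    refine ⟨⟨y, hyt⟩, Subtype.ext ?_⟩
    simpa using hy
  · rintro ⟨w, hw⟩
    refine ⟨(w : M), ?_⟩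
    have := congrArg Subtype.val hw
    simpa using this

/-- `#M[r][𝔪^∞] = #` image of `ψ`. -/
theorem card_primaryPart_inf_torsionBy {𝔪 : Ideal T} {K : ℕ} {f : T}
    (h : IsSplit 𝔪 K f (torsionSub T M)) [Finite (torsionSub T M)] {r : ℕ} (hr : 0 < r) :
    Nat.card ↥(primaryPart 𝔪 M ⊓ torsionBy T M (r : T)) =
      Nat.card (LinearMap.range (psiMap f r M)) := by
  have h1 := card_ker_eq_card_range (splitEnd f r (torsionSub T M)).toAddMonoidHom
    (psiMap f r M).toAddMonoidHom (fun x => by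
      simpa using psiMap_eq_zero_iff h hr x)
  have h2 : Nat.card (psiMap f r M).toAddMonoidHom.range =
      Nat.card (LinearMap.range (psiMap f r M)) := by
    apply Nat.card_congr
    exact Equiv.subtypeEquivRight (fun b => by
      rw [AddMonoidHom.mem_range, LinearMap.mem_range]; rfl)
  rw [← h2, ← h1]
  apply Nat.card_congr
  refine
    { toFun := fun x => ⟨⟨x.1, ?_⟩, ?_⟩
      invFun := fun u => ⟨(u.1 : M), ?_⟩
      left_inv := fun x => rfl
      right_inv := fun u => rfl }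
  · -- `x` is torsion
    have hx : (x : M) ∈ torsionBy T M (r : T) := x.2.2
    rw [mem_torsionBy_iff, Nat.cast_smul_eq_nsmul] at hx
    exact ⟨r, hr, hx⟩
  · -- `g x = 0`
    rw [AddMonoidHom.mem_ker]
    show splitEnd f r (torsionSub T M) _ = 0
    rw [splitEnd_eq_zero_iff h]
    have hx1 : (x : M) ∈ primaryPart 𝔪 M := x.2.1
    have hx2 : (x : M) ∈ torsionBy T M (r : T) := x.2.2
    rw [mem_torsionBy_iff, Nat.cast_smul_eq_nsmul] at hx2
    constructor
    · rw [← h.mem_primaryPart_iff]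
      obtain ⟨k, hk⟩ := hx1
      exact ⟨k, fun t ht => Subtype.ext (by simpa using hk t ht)⟩
    · exact Subtype.ext (by simpa using hx2)
  · -- back
    have hu := u.2
    rw [AddMonoidHom.mem_ker] at hu
    have hu' : splitEnd f r (torsionSub T M) u.1 = 0 := hu
    rw [splitEnd_eq_zero_iff h] at hu'
    obtain ⟨hf, hru⟩ := hu'
    refine ⟨⟨K, fun t ht => ?_⟩, ?_⟩
    · have := h.kill t ht u.1
      rw [hf, sub_zero] at this
      have := congrArg Subtype.val this
      simpa using this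
    · show ((u.1 : torsionSub T M) : M) ∈ torsionBy T M (r : T)
      rw [mem_torsionBy_iff, Nat.cast_smul_eq_nsmul]
      have := congrArg Subtype.val hru
      simpa using this

theorem range_psiMap_le {𝔪 : Ideal T} {K : ℕ} {f : T} {r : ℕ}
    (hB : IsSplit 𝔪 K f (M ⧸ mulSub T M r)) :
    LinearMap.range (psiMap f r M) ≤
      primaryPart 𝔪 (M ⧸ mulSub T M r) ⊓ (torsionSub T M).map (mulSub T M r).mkQ := by
  rintro _ ⟨x, rfl⟩
  rw [psiMap_apply]
  refine ⟨?_, ?_⟩
  · rw [map_sub, map_smul]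
    exact hB.sub_smul_mem_primaryPart _
  · exact Submodule.mem_map_of_mem
      ((torsionSub T M).sub_mem x.2 ((torsionSub T M).smul_mem f x.2))

/-- **Key step.** From the descent inequality `#(M/rM)[𝔪^∞] ≤ #M[r][𝔪^∞]`: the `𝔪`-primary part
of `M / r M` comes from torsion. -/
theorem primaryPart_le_map_torsionSub [Module.Finite ℤ M] {𝔪 : Ideal T} {r : ℕ} (hr : 0 < r)
    (H : Nat.card ↥(primaryPart 𝔪 (M ⧸ mulSub T M r)) ≤
      Nat.card ↥(primaryPart 𝔪 M ⊓ torsionBy T M (r : T))) :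
    primaryPart 𝔪 (M ⧸ mulSub T M r) ≤ (torsionSub T M).map (mulSub T M r).mkQ := by
  have : Finite (torsionSub T M) := finite_torsionSub
  have : Finite (M ⧸ mulSub T M r) := finite_quotient_mulSub hr
  obtain ⟨K, f, hsplit⟩ := exists_isSplit 𝔪 ((M ⧸ mulSub T M r) × torsionSub T M)
  have hB : IsSplit 𝔪 K f (M ⧸ mulSub T M r) :=
    hsplit.of_surjective (LinearMap.fst T _ _) Prod.fst_surjective
  have hX : IsSplit 𝔪 K f (torsionSub T M) :=
    hsplit.of_surjective (LinearMap.snd T _ _) Prod.snd_surjective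
  set E := primaryPart 𝔪 (M ⧸ mulSub T M r) with hE
  set A := (torsionSub T M).map (mulSub T M r).mkQ with hA
  have h1 := card_primaryPart_inf_torsionBy hX hr
  have h2 : Nat.card (LinearMap.range (psiMap f r M)) ≤ Nat.card ↥(E ⊓ A) :=
    Nat.card_mono (Set.toFinite _) (range_psiMap_le hB)
  have h3 : Nat.card ↥E ≤ Nat.card ↥(E ⊓ A) := by
    calc Nat.card ↥E ≤ _ := H
      _ = _ := h1
      _ ≤ _ := h2
  have h4 : ((E ⊓ A : Submodule T _) : Set (M ⧸ mulSub T M r)) = E := by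
    apply Set.eq_of_subset_of_ncard_le
    · exact fun x hx => hx.1
    · rw [← Nat.card_coe_set_eq, ← Nat.card_coe_set_eq]
      exact h3
    · exact Set.toFinite _
  intro x hx
  have : x ∈ ((E ⊓ A : Submodule T _) : Set (M ⧸ mulSub T M r)) := by
    rw [h4]; exact hx
  exact this.2

/-- **Rank zero from the descent inequality.**  `M` finitely generated over `ℤ`, `r ∈ 𝔪`,
`#(M/rM)[𝔪^∞] ≤ #M[r][𝔪^∞]`  ⟹  some `s ≡ 1 mod 𝔪` maps `M` into its torsion subgroup. -/
theorem exists_smul_torsion_of_card_le [Module.Finite ℤ M] {𝔪 : Ideal T} {r : ℕ} (hr : 0 < r)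
    (hr𝔪 : (r : T) ∈ 𝔪)
    (H : Nat.card ↥(primaryPart 𝔪 (M ⧸ mulSub T M r)) ≤
      Nat.card ↥(primaryPart 𝔪 M ⊓ torsionBy T M (r : T))) :
    ∃ s : T, s - 1 ∈ 𝔪 ∧ ∀ z : M, ∃ k : ℕ, 0 < k ∧ k • (s • z) = 0 := by
  have key := primaryPart_le_map_torsionSub hr H
  have : Finite (M ⧸ mulSub T M r) := finite_quotient_mulSub hr
  obtain ⟨K, f, hB⟩ := exists_isSplit 𝔪 (M ⧸ mulSub T M r)
  have hf𝔪 : f ∈ 𝔪 := by
    have := hB.pow_mem 1
    simpa using this
  have htop : (⊤ : Submodule T (M ⧸ torsionSub T M)) ≤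
      𝔪 • (⊤ : Submodule T (M ⧸ torsionSub T M)) := by
    intro q _
    obtain ⟨z, rfl⟩ := (torsionSub T M).mkQ_surjective q
    have h1 : (mulSub T M r).mkQ z - f • (mulSub T M r).mkQ z ∈
        primaryPart 𝔪 (M ⧸ mulSub T M r) := hB.sub_smul_mem_primaryPart _
    obtain ⟨x, hx, hxz⟩ := key h1
    have h2 : (mulSub T M r).mkQ (z - f • z - x) = 0 := by
      rw [map_sub, map_sub, map_smul, hxz, sub_self]
    rw [mkQ_apply, Quotient.mk_eq_zero, mem_mulSub] at h2
    obtain ⟨w, hw⟩ := h2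
    have hx0 : (torsionSub T M).mkQ x = 0 := by
      rw [mkQ_apply, Quotient.mk_eq_zero]; exact hx
    have h3 : (torsionSub T M).mkQ z =
        (r : T) • (torsionSub T M).mkQ w + f • (torsionSub T M).mkQ z := by
      have hz : z = (r : T) • w + f • z + x := by
        rw [Nat.cast_smul_eq_nsmul, hw]; abel
      conv_lhs => rw [hz]
      rw [map_add, map_add, map_smul, map_smul, hx0, add_zero]
    rw [h3]
    exact add_mem (Submodule.smul_mem_smul hr𝔪 Submodule.mem_top)
      (Submodule.smul_mem_smul hf𝔪 Submodule.mem_top)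
  have hfgZ : Module.Finite ℤ (M ⧸ torsionSub T M) :=
    Module.Finite.of_surjective
      ((torsionSub T M).mkQ.toAddMonoidHom.toIntLinearMap) (torsionSub T M).mkQ_surjective
  have hfgT : Module.Finite T (M ⧸ torsionSub T M) :=
    Module.Finite.of_restrictScalars_finite ℤ T _
  obtain ⟨s, hs1, hs⟩ :=
    Submodule.exists_sub_one_mem_and_smul_eq_zero_of_fg_of_le_smul 𝔪 _ hfgT.fg_top htop
  refine ⟨s, hs1, fun z => ?_⟩
  have := hs ((torsionSub T M).mkQ z) Submodule.mem_top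
  rw [← map_smul, mkQ_apply, Quotient.mk_eq_zero] at this
  exact this

end LayerOne

section LayerZero

variable {T : Type*} [CommRing T] {M : Type*} [AddCommGroup M] [Module T M]

/-- **Gluing over the maximal ideals containing `I`.** -/
theorem exists_one_sub_mem_of_forall_maximal (I : Ideal T)
    (H : ∀ 𝔪 : Ideal T, 𝔪.IsMaximal → I ≤ 𝔪 →
      ∃ s : T, s ∉ 𝔪 ∧ ∀ z : M, ∃ k : ℕ, 0 < k ∧ k • (s • z) = 0) :
    ∃ t : T, 1 - t ∈ I ∧ ∀ z : M, ∃ k : ℕ, 0 < k ∧ k • (t • z) = 0 := by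
  set 𝔞 : Ideal T := Module.annihilator T (M ⧸ torsionSub T M) with h𝔞
  have hmem : ∀ s : T, s ∈ 𝔞 ↔ ∀ z : M, ∃ k : ℕ, 0 < k ∧ k • (s • z) = 0 := by
    intro s
    rw [h𝔞, Module.mem_annihilator]
    constructor
    · intro h z
      have := h ((torsionSub T M).mkQ z)
      rw [← map_smul, mkQ_apply, Quotient.mk_eq_zero] at this
      exact this
    · intro h q
      obtain ⟨z, rfl⟩ := (torsionSub T M).mkQ_surjective q
      rw [← map_smul, mkQ_apply, Quotient.mk_eq_zero]
      exact h z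
  have htop : I ⊔ 𝔞 = ⊤ := by
    by_contra hne
    obtain ⟨𝔪, h𝔪, hle⟩ := Ideal.exists_le_maximal _ hne
    obtain ⟨s, hs, hsz⟩ := H 𝔪 h𝔪 (le_sup_left.trans hle)
    exact hs (hle (Ideal.mem_sup_right ((hmem s).mpr hsz)))
  have h1 : (1 : T) ∈ I ⊔ 𝔞 := by rw [htop]; exact Submodule.mem_top
  obtain ⟨i, hi, a, ha, hia⟩ := Submodule.mem_sup.mp h1
  refine ⟨a, ?_, (hmem a).mp ha⟩
  have : 1 - a = i := by rw [← hia]; ring
  rw [this]; exact hi

/-- **DESC-ALG.**  `M` finitely generated over `ℤ`; if for every maximal ideal `𝔪 ⊇ I` there is a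
positive integer `r ∈ 𝔪` with `#(M/rM)[𝔪^∞] ≤ #M[r][𝔪^∞]`, then some `t ≡ 1 mod I` maps `M` into
its torsion subgroup. -/
theorem desc_alg [Module.Finite ℤ M] (I : Ideal T)
    (H : ∀ 𝔪 : Ideal T, 𝔪.IsMaximal → I ≤ 𝔪 → ∃ r : ℕ, 0 < r ∧ (r : T) ∈ 𝔪 ∧
      Nat.card ↥(primaryPart 𝔪 (M ⧸ mulSub T M r)) ≤
        Nat.card ↥(primaryPart 𝔪 M ⊓ torsionBy T M (r : T))) :
    ∃ t : T, 1 - t ∈ I ∧ ∀ z : M, ∃ k : ℕ, 0 < k ∧ k • (t • z) = 0 := by
  refine exists_one_sub_mem_of_forall_maximal I (fun 𝔪 h𝔪 hI => ?_)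
  obtain ⟨r, hr, hr𝔪, hcard⟩ := H 𝔪 h𝔪 hI
  obtain ⟨s, hs1, hs⟩ := exists_smul_torsion_of_card_le hr hr𝔪 hcard
  refine ⟨s, fun hs𝔪 => ?_, hs⟩
  apply h𝔪.ne_top
  rw [Ideal.eq_top_iff_one]
  have := 𝔪.sub_mem hs𝔪 hs1
  simpa using this

end LayerZero

end Fermat.Agent.S15.H2
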